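import Fermat.Agent.S55.Fc.LES.Defs

/-!
# S55 F-con 4: the regular representation on level functions is acyclic; every discrete module
embeds into it
-/

set_option autoImplicit false

noncomputable section

namespace Fermat.Agent.S55

variable (k : Type*) [CommRing k] {G : Type} [Group G] (L : Lev G)
variable (A : Type*) [AddCommGroup A] [Module k A]

/-- `G` acts on the level functions `G → A` by right translation `(g • f) x = f (x * g)`. -/
def regRep : Representation k G (C1 k L A) where
  toFun g := (LinearMap.funLeft k A (· * g)).restrict fun _ hf => IsLev₁.mul_right hf g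
  map_one' := by ext; simp
  map_mul' a b := by
    ext f x
    show (f : G → A) (x * (a * b)) = (f : G → A) (x * a * b)
    rw [mul_assoc]

variable {k A}

@[simp] lemma regRep_apply (g : G) (f : C1 k L A) (x : G) :
    (regRep k L A g f : G → A) x = (f : G → A) (x * g) := rfl

lemma regRep_isDiscrete : IsDiscrete L (regRep k L A) := by
  intro f
  obtain ⟨U, hU, h⟩ := f.2
  exact ⟨U, hU, fun u hu => Subtype.ext (funext fun x => h x u hu)⟩

/-- `y t := x t 1` is a primitive of the 1-cocycle `x`. -/
lemma regRep_H1_eq_zero (c : H1 L (regRep k L A)) : c = 0 := by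
  induction c using H1_induction with
  | h x =>
    rw [H1π_eq_zero_iff, mem_B1_iff]
    have hlev : IsLev₁ L (fun t : G => (((x : G → C1 k L A) t : C1 k L A) : G → A) 1) :=
      (Z1.isLev x).comp (fun f : C1 k L A => (f : G → A) 1)
    refine ⟨⟨fun t : G => (((x : G → C1 k L A) t : C1 k L A) : G → A) 1, hlev⟩, fun g => ?_⟩
    ext t
    have h1 := congrFun (congrArg Subtype.val (Z1.mul x t g)) 1
    simp only [Submodule.coe_add, Pi.add_apply, regRep_apply, one_mul] at h1
    simp only [Submodule.coe_sub, Pi.sub_apply, regRep_apply]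
    rw [h1]
    abel

/-- `y g t := x (t, g) 1` is a primitive of the 2-cocycle `x`. -/
lemma regRep_H2_eq_zero (c : H2 L (regRep k L A)) : c = 0 := by
  induction c using H2_induction with
  | h x =>
    rw [H2π_eq_zero_iff, mem_B2_iff]
    have hlev : ∀ g : G,
        IsLev₁ L (fun t : G => (((x : G × G → C1 k L A) (t, g) : C1 k L A) : G → A) 1) :=
      fun g => ((Z2.isLev x).left g).comp (fun f : C1 k L A => (f : G → A) 1)
    refine ⟨fun g => ⟨fun t : G => (((x : G × G → C1 k L A) (t, g) : C1 k L A) : G → A) 1, hlev g⟩,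
      ?_, fun g h => ?_⟩
    · obtain ⟨U, hU, hx⟩ := Z2.isLev x
      refine ⟨U, hU, fun g u hu => Subtype.ext (funext fun t => ?_)⟩
      have := hx t g 1 U.one_mem u hu
      rw [mul_one] at this
      show (((x : G × G → C1 k L A) (t, g * u) : C1 k L A) : G → A) 1
        = (((x : G × G → C1 k L A) (t, g) : C1 k L A) : G → A) 1
      rw [this]
    · ext t
      have h1 := congrFun (congrArg Subtype.val (Z2.cocycle x t g h)) 1
      simp only [Submodule.coe_add, Pi.add_apply, regRep_apply, one_mul] at h1
      simp only [Submodule.coe_sub, Submodule.coe_add, Pi.sub_apply, Pi.add_apply, regRep_apply]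
      rw [eq_sub_of_add_eq h1]
      abel

variable {L} {ρ : Representation k G A}

/-- the embedding `a ↦ (g ↦ ρ g a)` of a discrete module into the regular representation -/
def toReg (hρ : IsDiscrete L ρ) : A →ₗ[k] C1 k L A where
  toFun a := ⟨fun g => ρ g a, by
    obtain ⟨U, hU, h⟩ := hρ a
    exact ⟨U, hU, fun g u hu => by
      show ρ (g * u) a = ρ g a
      rw [map_mul, Module.End.mul_apply, h u hu]⟩⟩
  map_add' a b := by ext; simp
  map_smul' c a := by ext; simp

@[simp] lemma toReg_apply (hρ : IsDiscrete L ρ) (a : A) (g : G) :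
    (toReg hρ a : G → A) g = ρ g a := rfl

lemma toReg_comm (hρ : IsDiscrete L ρ) (g : G) (a : A) :
    toReg hρ (ρ g a) = regRep k L A g (toReg hρ a) := by
  ext x
  simp

lemma toReg_injective (hρ : IsDiscrete L ρ) : Function.Injective (toReg hρ) := by
  intro a b h
  have := congrFun (congrArg Subtype.val h) 1
  simpa using this

/-- the cokernel of `toReg` -/
abbrev regQuot (hρ : IsDiscrete L ρ) :
    Representation k G (C1 k L A ⧸ LinearMap.range (toReg hρ)) :=
  quotRep (regRep k L A) (LinearMap.range (toReg hρ)) (by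
    rintro g _ ⟨a, rfl⟩; exact ⟨ρ g a, toReg_comm hρ g a⟩)

/-- `0 → A → Reg(A) → Q → 0` -/
def SES.reg (hρ : IsDiscrete L ρ) : SES ρ (regRep k L A) (regQuot hρ) :=
  SES.ofInjective (toReg hρ) (toReg_comm hρ) (toReg_injective hρ)

end Fermat.Agent.S55

end
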