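import Fermat.Agent.S55.Core.Defs

/-!
# S55 F-con 0: basic lemmas on level structures, level cochains and `PairHom`
-/

set_option autoImplicit false

noncomputable section

namespace Fermat.Agent.S55

/-! ### level structures -/

namespace Lev

variable {G H K : Type} [Group G] [Group H] [Group K]

lemma IsOpen.mono {L : Lev G} {U V : Subgroup G} (hU : L.IsOpen U) (h : U ≤ V) : L.IsOpen V := by
  obtain ⟨W, hW, hWU⟩ := hU
  exact ⟨W, hW, hWU.trans h⟩

lemma isOpen_of_mem {L : Lev G} {U : Subgroup G} (hU : U ∈ L.sets) : L.IsOpen U := ⟨U, hU, le_rfl⟩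

lemma isOpen_top (L : Lev G) : L.IsOpen ⊤ := by
  obtain ⟨U, hU⟩ := L.nonempty
  exact ⟨U, hU, le_top⟩

lemma IsOpen.inf {L : Lev G} {U V : Subgroup G} (hU : L.IsOpen U) (hV : L.IsOpen V) :
    L.IsOpen (U ⊓ V) := by
  obtain ⟨U', hU', hUU⟩ := hU
  obtain ⟨V', hV', hVV⟩ := hV
  obtain ⟨W, hW, hWUV⟩ := L.directed U' hU' V' hV'
  exact ⟨W, hW, hWUV.trans (inf_le_inf hUU hVV)⟩

lemma IsOpen.finiteIndex {L : Lev G} {U : Subgroup G} (hU : L.IsOpen U) : U.FiniteIndex := by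
  obtain ⟨W, hW, hWU⟩ := hU
  have := L.finiteIndex W hW
  exact Subgroup.finiteIndex_of_le hWU

/-- every open subgroup contains a normal level -/
lemma IsOpen.exists_normal {L : Lev G} {U : Subgroup G} (hU : L.IsOpen U) :
    ∃ V ∈ L.sets, V.Normal ∧ V ≤ U := by
  obtain ⟨W, hW, hWU⟩ := hU
  obtain ⟨V, hV, hVW, hVn⟩ := L.normal W hW
  exact ⟨V, hV, hVn, hVW.trans hWU⟩

/-- finitely many open subgroups contain a common normal level -/
lemma exists_normal_le_of_finite (L : Lev G) {ι : Type*} [Finite ι] (U : ι → Subgroup G)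
    (hU : ∀ i, L.IsOpen (U i)) : ∃ V ∈ L.sets, V.Normal ∧ ∀ i, V ≤ U i := by
  classical
  have := Fintype.ofFinite ι
  have key : ∀ s : Finset ι, L.IsOpen (s.inf U) := by
    intro s
    induction s using Finset.induction_on with
    | empty => simpa using L.isOpen_top
    | insert a s _ ih => rw [Finset.inf_insert]; exact (hU a).inf ih
  obtain ⟨V, hV, hVn, hVle⟩ := (key Finset.univ).exists_normal
  exact ⟨V, hV, hVn, fun i => hVle.trans (Finset.inf_le (Finset.mem_univ i))⟩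

/-- conjugates of open subgroups are open -/
lemma IsOpen.conj {L : Lev G} {U : Subgroup G} (hU : L.IsOpen U) (g : G) :
    L.IsOpen (U.map (MulAut.conj g).toMonoidHom) := by
  obtain ⟨V, hV, hVn, hVU⟩ := hU.exists_normal
  refine ⟨V, hV, fun v hv => ⟨g⁻¹ * v * g, hVU ?_, ?_⟩⟩
  · simpa using hVn.conj_mem v hv g⁻¹
  · simp [mul_assoc]

lemma IsOpen.comap {L : Lev G} {U : Subgroup G} (hU : L.IsOpen U) {LH : Lev H} {f : H →* G}
    (hf : Cont LH L f) : LH.IsOpen (U.comap f) := by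
  obtain ⟨W, hW, hWU⟩ := hU
  obtain ⟨V, hV, hVW⟩ := hf W hW
  exact ⟨V, hV, hVW.trans (Subgroup.comap_mono hWU)⟩

lemma Cont.comp {LG : Lev G} {LH : Lev H} {LK : Lev K} {f : H →* G} {f' : K →* H}
    (hf : Cont LH LG f) (hf' : Cont LK LH f') : Cont LK LG (f.comp f') := by
  intro U hU
  obtain ⟨V, hV, hVU⟩ := hf U hU
  obtain ⟨W, hW, hWV⟩ := hf' V hV
  exact ⟨W, hW, fun x hx => hVU (hWV hx)⟩

/-- `LH` is (equivalent to) the level structure induced from `LG` along `f`. -/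
def Induced (LH : Lev H) (LG : Lev G) (f : H →* G) : Prop :=
  Cont LH LG f ∧ ∀ V ∈ LH.sets, ∃ U ∈ LG.sets, U.comap f ≤ V

lemma induced_comap (L : Lev G) (f : H →* G) : Induced (L.comap f) L f :=
  ⟨L.cont_comap f, by rintro _ ⟨U, hU, rfl⟩; exact ⟨U, hU, le_rfl⟩⟩

lemma Induced.comp {LG : Lev G} {LH : Lev H} {LK : Lev K} {f : H →* G} {f' : K →* H}
    (hf : Induced LH LG f) (hf' : Induced LK LH f') : Induced LK LG (f.comp f') := by
  refine ⟨hf.1.comp hf'.1, fun W hW => ?_⟩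
  obtain ⟨V, hV, hVW⟩ := hf'.2 W hW
  obtain ⟨U, hU, hUV⟩ := hf.2 V hV
  exact ⟨U, hU, fun x hx => hVW (hUV hx)⟩

/-- inclusion of subgroups is induced -/
lemma induced_inclusion (L : Lev G) {U V : Subgroup G} (h : U ≤ V) :
    Induced (L.sub U) (L.sub V) (Subgroup.inclusion h) := by
  constructor
  · rintro _ ⟨W, hW, rfl⟩
    exact ⟨W.comap U.subtype, ⟨W, hW, rfl⟩, fun x hx => hx⟩
  · rintro _ ⟨W, hW, rfl⟩
    exact ⟨W.comap V.subtype, ⟨W, hW, rfl⟩, fun x hx => hx⟩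

/-- conjugation is continuous -/
lemma cont_conj (L : Lev G) (g : G) : Cont L L (MulAut.conj g).toMonoidHom := by
  intro U hU
  obtain ⟨V, hV, hVU, hVn⟩ := L.normal U hU
  exact ⟨V, hV, fun v hv => hVU (by simpa using hVn.conj_mem v hv g)⟩

/-- The level structure `{⊥}` on a finite group. -/
def ofFinite (G : Type) [Group G] [Finite G] : Lev G where
  sets := {⊥}
  nonempty := ⟨⊥, rfl⟩
  directed := by rintro _ rfl _ rfl; exact ⟨⊥, rfl, by simp⟩
  normal := by rintro _ rfl; exact ⟨⊥, rfl, le_rfl, inferInstance⟩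
  finiteIndex := by rintro _ rfl; infer_instance

end Lev

/-! ### level cochains -/

section cochains

variable {G : Type} [Group G] {L : Lev G}

lemma IsLev₁.finite_range {X : Type*} {f : G → X} (hf : IsLev₁ L f) : (Set.range f).Finite := by
  obtain ⟨U, hU, h⟩ := hf
  have := L.finiteIndex U hU
  have hfin : Finite (G ⧸ U) := Subgroup.finite_quotient_of_finiteIndex
  refine (Set.finite_range (fun q : G ⧸ U => f q.out)).subset ?_
  rintro _ ⟨g, rfl⟩
  obtain ⟨u, hu⟩ := QuotientGroup.mk_out_eq_mul U g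
  exact ⟨(g : G ⧸ U), by simp only [hu]; exact h g u u.2⟩

lemma IsLev₂.finite_range {X : Type*} {f : G × G → X} (hf : IsLev₂ L f) :
    (Set.range f).Finite := by
  obtain ⟨U, hU, h⟩ := hf
  have := L.finiteIndex U hU
  have hfin : Finite (G ⧸ U) := Subgroup.finite_quotient_of_finiteIndex
  refine (Set.finite_range (fun q : (G ⧸ U) × (G ⧸ U) => f (q.1.out, q.2.out))).subset ?_
  rintro _ ⟨⟨g, g'⟩, rfl⟩
  obtain ⟨u, hu⟩ := QuotientGroup.mk_out_eq_mul U g
  obtain ⟨v, hv⟩ := QuotientGroup.mk_out_eq_mul U g'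
  exact ⟨((g : G ⧸ U), (g' : G ⧸ U)), by simp only [hu, hv]; exact h g g' u u.2 v v.2⟩

/-- a level cochain is right invariant under a NORMAL level, hence also left invariant -/
lemma IsLev₁.exists_normal {X : Type*} {f : G → X} (hf : IsLev₁ L f) :
    ∃ U ∈ L.sets, U.Normal ∧ (∀ g : G, ∀ u ∈ U, f (g * u) = f g) ∧
      ∀ g : G, ∀ u ∈ U, f (u * g) = f g := by
  obtain ⟨U, hU, h⟩ := hf
  obtain ⟨V, hV, hVU, hVn⟩ := L.normal U hU
  refine ⟨V, hV, hVn, fun g u hu => h g u (hVU hu), fun g u hu => ?_⟩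
  have h1 : g⁻¹ * u * g ∈ V := by simpa using hVn.conj_mem u hu g⁻¹
  have h2 := h g _ (hVU h1)
  rwa [show g * (g⁻¹ * u * g) = u * g by group] at h2

lemma IsLev₂.exists_normal {X : Type*} {f : G × G → X} (hf : IsLev₂ L f) :
    ∃ U ∈ L.sets, U.Normal ∧ (∀ g h : G, ∀ u ∈ U, ∀ v ∈ U, f (g * u, h * v) = f (g, h)) ∧
      ∀ g h : G, ∀ u ∈ U, ∀ v ∈ U, f (u * g, v * h) = f (g, h) := by
  obtain ⟨U, hU, h⟩ := hf
  obtain ⟨V, hV, hVU, hVn⟩ := L.normal U hU
  refine ⟨V, hV, hVn, fun g g' u hu v hv => h g g' u (hVU hu) v (hVU hv),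
    fun g g' u hu v hv => ?_⟩
  have h1 : g⁻¹ * u * g ∈ V := by simpa using hVn.conj_mem u hu g⁻¹
  have h1' : g'⁻¹ * v * g' ∈ V := by simpa using hVn.conj_mem v hv g'⁻¹
  have h2 := h g g' _ (hVU h1) _ (hVU h1')
  rwa [show g * (g⁻¹ * u * g) = u * g by group,
    show g' * (g'⁻¹ * v * g') = v * g' by group] at h2

/-- criterion: invariance under an OPEN subgroup is enough -/
lemma isLev₁_of_isOpen {X : Type*} {f : G → X} {U : Subgroup G} (hU : L.IsOpen U)
    (h : ∀ g : G, ∀ u ∈ U, f (g * u) = f g) : IsLev₁ L f := by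
  obtain ⟨W, hW, hWU⟩ := hU
  exact ⟨W, hW, fun g u hu => h g u (hWU hu)⟩

lemma isLev₂_of_isOpen {X : Type*} {f : G × G → X} {U : Subgroup G} (hU : L.IsOpen U)
    (h : ∀ g h : G, ∀ u ∈ U, ∀ v ∈ U, f (g * u, h * v) = f (g, h)) : IsLev₂ L f := by
  obtain ⟨W, hW, hWU⟩ := hU
  exact ⟨W, hW, fun g g' u hu v hv => h g g' u (hWU hu) v (hWU hv)⟩

/-- partial evaluation, multiplication etc. of level cochains -/
lemma IsLev₂.left {X : Type*} {f : G × G → X} (hf : IsLev₂ L f) (h : G) :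
    IsLev₁ L (fun g => f (g, h)) := by
  obtain ⟨U, hU, hh⟩ := hf
  exact ⟨U, hU, fun g u hu => by simpa using hh g h u hu 1 U.one_mem⟩

lemma IsLev₂.right {X : Type*} {f : G × G → X} (hf : IsLev₂ L f) (g : G) :
    IsLev₁ L (fun h => f (g, h)) := by
  obtain ⟨U, hU, hh⟩ := hf
  exact ⟨U, hU, fun h u hu => by simpa using hh g h 1 U.one_mem u hu⟩

lemma IsLev₁.fst {X : Type*} {f : G → X} (hf : IsLev₁ L f) : IsLev₂ L (fun p : G × G => f p.1) := by
  obtain ⟨U, hU, hh⟩ := hf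
  exact ⟨U, hU, fun g _ u hu _ _ => hh g u hu⟩

lemma IsLev₁.snd {X : Type*} {f : G → X} (hf : IsLev₁ L f) : IsLev₂ L (fun p : G × G => f p.2) := by
  obtain ⟨U, hU, hh⟩ := hf
  exact ⟨U, hU, fun _ h _ _ v hv => hh h v hv⟩

lemma IsLev₁.mul {X : Type*} {f : G → X} (hf : IsLev₁ L f) :
    IsLev₂ L (fun p : G × G => f (p.1 * p.2)) := by
  obtain ⟨U, hU, hUn, h, -⟩ := hf.exists_normal
  refine ⟨U, hU, fun g g' u hu v hv => ?_⟩
  have h1 : g'⁻¹ * u * g' ∈ U := by simpa using hUn.conj_mem u hu g'⁻¹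
  have h2 := h (g * g') _ (U.mul_mem h1 hv)
  show f (g * u * (g' * v)) = f (g * g')
  rwa [show g * g' * (g'⁻¹ * u * g' * v) = g * u * (g' * v) by group] at h2

lemma IsLev₁.mul_left {X : Type*} {f : G → X} (hf : IsLev₁ L f) (a : G) :
    IsLev₁ L (fun g => f (a * g)) := by
  obtain ⟨U, hU, hh⟩ := hf
  exact ⟨U, hU, fun g u hu => by simpa [mul_assoc] using hh (a * g) u hu⟩

lemma IsLev₁.mul_right {X : Type*} {f : G → X} (hf : IsLev₁ L f) (a : G) :
    IsLev₁ L (fun g => f (g * a)) := by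
  obtain ⟨U, hU, hUn, h, -⟩ := hf.exists_normal
  refine ⟨U, hU, fun g u hu => ?_⟩
  have h1 : a⁻¹ * u * a ∈ U := by simpa using hUn.conj_mem u hu a⁻¹
  have h2 := h (g * a) _ h1
  show f (g * u * a) = f (g * a)
  rwa [show g * a * (a⁻¹ * u * a) = g * u * a by group] at h2

end cochains

/-! ### discrete modules -/

section discrete

variable {k : Type*} [CommRing k] {G : Type} [Group G] {L : Lev G}
variable {M : Type*} [AddCommGroup M] [Module k M] {ρ : Representation k G M}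

/-- the stabiliser of a vector -/
def stab (ρ : Representation k G M) (m : M) : Subgroup G where
  carrier := {g | ρ g m = m}
  mul_mem' {a b} ha hb := by
    simp only [Set.mem_setOf_eq] at ha hb ⊢
    rw [map_mul, Module.End.mul_apply, hb, ha]
  one_mem' := by simp
  inv_mem' {a} ha := by
    simp only [Set.mem_setOf_eq] at ha ⊢
    calc ρ a⁻¹ m = ρ a⁻¹ (ρ a m) := by rw [ha]
      _ = m := by rw [← Module.End.mul_apply, ← map_mul]; simp

lemma mem_stab {m : M} {g : G} : g ∈ stab ρ m ↔ ρ g m = m := Iff.rfl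

lemma isDiscrete_iff : IsDiscrete L ρ ↔ ∀ m, L.IsOpen (stab ρ m) :=
  ⟨fun h m => (h m).imp fun _ hU => ⟨hU.1, fun u hu => hU.2 u hu⟩,
    fun h m => (h m).imp fun _ hU => ⟨hU.1, fun u hu => hU.2 hu⟩⟩

/-- finitely many vectors of a discrete module are fixed by a common normal level -/
lemma IsDiscrete.exists_normal_of_finite (hρ : IsDiscrete L ρ) {s : Set M} (hs : s.Finite) :
    ∃ U ∈ L.sets, U.Normal ∧ ∀ u ∈ U, ∀ m ∈ s, ρ u m = m := by
  have : Finite s := hs
  obtain ⟨V, hV, hVn, hle⟩ := L.exists_normal_le_of_finite (fun m : s => stab ρ (m : M))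
    (fun m => isDiscrete_iff.1 hρ m)
  exact ⟨V, hV, hVn, fun u hu m hm => hle ⟨m, hm⟩ hu⟩

lemma IsDiscrete.comp {H : Type} [Group H] {LH : Lev H} (hρ : IsDiscrete L ρ) {f : H →* G}
    (hf : Lev.Cont LH L f) : IsDiscrete LH (ρ.comp f) := by
  intro m
  obtain ⟨U, hU, h⟩ := hρ m
  obtain ⟨V, hV, hVU⟩ := hf U hU
  exact ⟨V, hV, fun v hv => h _ (hVU hv)⟩

/-- a finitely generated module on which an open subgroup acts trivially is discrete; conversely
a finite discrete module is acted on trivially by a normal level -/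
lemma isDiscrete_of_isOpen_ker {U : Subgroup G} (hU : L.IsOpen U) (h : ∀ u ∈ U, ρ u = 1) :
    IsDiscrete L ρ := by
  intro m
  obtain ⟨W, hW, hWU⟩ := hU
  exact ⟨W, hW, fun u hu => by rw [h u (hWU hu)]; rfl⟩

lemma IsDiscrete.exists_normal_ker [Module.Finite k M] (hρ : IsDiscrete L ρ) :
    ∃ U ∈ L.sets, U.Normal ∧ ∀ u ∈ U, ρ u = 1 := by
  obtain ⟨S, hS⟩ := (Module.Finite.fg_top : (⊤ : Submodule k M).FG)
  obtain ⟨U, hU, hUn, h⟩ := hρ.exists_normal_of_finite S.finite_toSet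
  exact ⟨U, hU, hUn, fun u hu => LinearMap.ext_on hS fun m hm => h u hu m hm⟩

lemma d0_isLev₁ (hρ : IsDiscrete L ρ) (m : M) : IsLev₁ L (d0 ρ m) := by
  obtain ⟨U, hU, h⟩ := hρ m
  exact ⟨U, hU, fun g u hu => by
    simp only [d0_apply, map_mul, Module.End.mul_apply, h u hu]⟩

lemma d1_isLev₂ (hρ : IsDiscrete L ρ) {x : G → M} (hx : IsLev₁ L x) : IsLev₂ L (d1 ρ x) := by
  have h1 : IsLev₂ L (fun p : G × G => ρ p.1 (x p.2)) := by
    obtain ⟨U, hU, hUx⟩ := hx
    obtain ⟨V, hV, -, hVx⟩ := hρ.exists_normal_of_finite (IsLev₁.finite_range ⟨U, hU, hUx⟩)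
    obtain ⟨W, hW, hWUV⟩ := L.directed U hU V hV
    refine ⟨W, hW, fun g g' u hu v hv => ?_⟩
    show ρ (g * u) (x (g' * v)) = ρ g (x g')
    rw [hUx g' v (hWUV hv).1, map_mul, Module.End.mul_apply, hVx u (hWUV hu).2 _ ⟨g', rfl⟩]
  exact (h1.map₂ hx.mul (· - ·)).map₂ hx.fst (· + ·)

lemma d1_d0 (m : M) : d1 ρ (d0 ρ m) = 0 := by
  ext ⟨g, h⟩
  simp [map_sub]

lemma d2_d1 (x : G → M) : d2 ρ (d1 ρ x) = 0 := by
  ext ⟨g, h, j⟩
  simp [map_sub, map_add, mul_assoc]
  abel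

lemma B1_le_Z1 (hρ : IsDiscrete L ρ) : B1 ρ ≤ Z1 L ρ := by
  rintro _ ⟨m, rfl⟩
  exact ⟨d0_isLev₁ hρ m, d1_d0 m⟩

lemma B2_le_Z2 (hρ : IsDiscrete L ρ) : B2 L ρ ≤ Z2 L ρ := by
  rintro _ ⟨y, hy, rfl⟩
  exact ⟨d1_isLev₂ hρ hy, d2_d1 y⟩

/-- constructor for classes -/
def Z1.mk (x : G → M) (h1 : IsLev₁ L x) (h2 : ∀ g h, x (g * h) = ρ g (x h) + x g) : ↥(Z1 L ρ) :=
  ⟨x, (mem_Z1_iff L ρ x).2 ⟨h1, h2⟩⟩

def Z2.mk (x : G × G → M) (h1 : IsLev₂ L x)
    (h2 : ∀ g h j, x (g * h, j) + x (g, h) = ρ g (x (h, j)) + x (g, h * j)) : ↥(Z2 L ρ) :=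
  ⟨x, (mem_Z2_iff L ρ x).2 ⟨h1, h2⟩⟩

lemma Z1.isLev (x : ↥(Z1 L ρ)) : IsLev₁ L (x : G → M) := ((mem_Z1_iff L ρ _).1 x.2).1

lemma Z1.mul (x : ↥(Z1 L ρ)) (g h : G) : (x : G → M) (g * h) = ρ g ((x : G → M) h) + (x : G → M) g :=
  ((mem_Z1_iff L ρ _).1 x.2).2 g h

lemma Z1.one (x : ↥(Z1 L ρ)) : (x : G → M) 1 = 0 := by
  have := Z1.mul x 1 1
  simpa using this

lemma Z2.isLev (x : ↥(Z2 L ρ)) : IsLev₂ L (x : G × G → M) := ((mem_Z2_iff L ρ _).1 x.2).1

lemma Z2.cocycle (x : ↥(Z2 L ρ)) (g h j : G) :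
    (x : G × G → M) (g * h, j) + (x : G × G → M) (g, h)
      = ρ g ((x : G × G → M) (h, j)) + (x : G × G → M) (g, h * j) :=
  ((mem_Z2_iff L ρ _).1 x.2).2 g h j

lemma H1_induction {P : H1 L ρ → Prop} (h : ∀ x : ↥(Z1 L ρ), P (H1π L ρ x)) (c : H1 L ρ) : P c := by
  obtain ⟨x, rfl⟩ := Submodule.mkQ_surjective _ c
  exact h x

lemma H2_induction {P : H2 L ρ → Prop} (h : ∀ x : ↥(Z2 L ρ), P (H2π L ρ x)) (c : H2 L ρ) : P c := by
  obtain ⟨x, rfl⟩ := Submodule.mkQ_surjective _ c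
  exact h x

lemma H1π_eq_iff (x y : ↥(Z1 L ρ)) :
    H1π L ρ x = H1π L ρ y ↔ ∃ m : M, ∀ g, (x : G → M) g - (y : G → M) g = ρ g m - m := by
  rw [← sub_eq_zero, ← map_sub, H1π_eq_zero_iff, mem_B1_iff]
  rfl

lemma H2π_eq_iff (x y : ↥(Z2 L ρ)) :
    H2π L ρ x = H2π L ρ y ↔ ∃ c : G → M, IsLev₁ L c ∧
      ∀ g h, (x : G × G → M) (g, h) - (y : G × G → M) (g, h) = ρ g (c h) - c (g * h) + c g := by
  rw [← sub_eq_zero, ← map_sub, H2π_eq_zero_iff, mem_B2_iff]
  rfl

/-- every class in `H²` is represented by a NORMALISED cocycle: `x (1, g) = 0 = x (g, 1)` -/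
lemma exists_normalised (hρ : IsDiscrete L ρ) (c : H2 L ρ) :
    ∃ x : ↥(Z2 L ρ), H2π L ρ x = c ∧ (∀ g, (x : G × G → M) (1, g) = 0) ∧
      ∀ g, (x : G × G → M) (g, 1) = 0 := by
  induction c using H2_induction with
  | h x =>
    set m : M := (x : G × G → M) (1, 1) with hm
    have hb : d1 ρ (fun _ : G => m) ∈ B2 L ρ := ⟨_, isLev₁_const L m, rfl⟩
    have e1 : ∀ g, (x : G × G → M) (1, g) = m := by
      intro g
      have := Z2.cocycle x 1 1 g
      simp only [mul_one, one_mul, map_one, Module.End.one_apply, add_right_inj] at this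
      exact this.symm
    have e2 : ∀ g, (x : G × G → M) (g, 1) = ρ g m := by
      intro g
      have := Z2.cocycle x g 1 1
      simpa using this
    refine ⟨x - ⟨_, B2_le_Z2 hρ hb⟩, ?_, fun g => ?_, fun g => ?_⟩
    · rw [map_sub, sub_eq_self, H2π_eq_zero_iff]
      exact hb
    · simp [e1]
    · simp [e2]

end discrete

/-! ### composition of `PairHom`s -/

section pairhom

variable {k : Type*} [CommRing k] {G H K : Type} [Group G] [Group H] [Group K]
variable {LG : Lev G} {LH : Lev H} {LK : Lev K}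
variable {M N P : Type*} [AddCommGroup M] [Module k M] [AddCommGroup N] [Module k N]
  [AddCommGroup P] [Module k P]
variable {ρ : Representation k G M} {σ : Representation k H N} {τ : Representation k K P}

/-- identity -/
def PairHom.id (L : Lev G) (ρ : Representation k G M) : PairHom L L ρ ρ :=
  PairHom.ofLinear L LinearMap.id fun _ _ => rfl

/-- composition: first `α : (G, ρ) → (H, σ)`, then `β : (H, σ) → (K, τ)` -/
def PairHom.comp (β : PairHom LH LK σ τ) (α : PairHom LG LH ρ σ) : PairHom LG LK ρ τ where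
  f := α.f.comp β.f
  φ := β.φ.comp α.φ
  cont := α.cont.comp β.cont
  compat := fun h m => by
    simp only [MonoidHom.comp_apply, LinearMap.comp_apply, α.compat, β.compat]

@[simp] lemma PairHom.H0map_id : (PairHom.id LG ρ).H0map = LinearMap.id := by
  ext; rfl

@[simp] lemma PairHom.H1map_id : (PairHom.id LG ρ).H1map = LinearMap.id := by
  ext x; rfl

@[simp] lemma PairHom.H2map_id : (PairHom.id LG ρ).H2map = LinearMap.id := by
  ext x; rfl

lemma PairHom.H0map_comp (β : PairHom LH LK σ τ) (α : PairHom LG LH ρ σ) :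
    (β.comp α).H0map = β.H0map.comp α.H0map := by
  ext; rfl

lemma PairHom.H1map_comp (β : PairHom LH LK σ τ) (α : PairHom LG LH ρ σ) :
    (β.comp α).H1map = β.H1map.comp α.H1map := by
  ext x; rfl

lemma PairHom.H2map_comp (β : PairHom LH LK σ τ) (α : PairHom LG LH ρ σ) :
    (β.comp α).H2map = β.H2map.comp α.H2map := by
  ext x; rfl

/-- the induced maps only depend on `f` and `φ` -/
lemma PairHom.ext' {α β : PairHom LG LH ρ σ} (hf : α.f = β.f) (hφ : α.φ = β.φ) : α = β := by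
  cases α; cases β; simp_all

/-- `H^i` only depends on the equivalence class of the level structure. -/
def PairHom.ofEquivLev {L L' : Lev G} (h : Lev.Cont L' L (MonoidHom.id G))
    (ρ : Representation k G M) : PairHom L L' ρ ρ where
  f := MonoidHom.id G
  φ := LinearMap.id
  cont := h
  compat := fun _ _ => rfl

lemma PairHom.ofEquivLev_H1_bijective {L L' : Lev G} (h : Lev.Cont L' L (MonoidHom.id G))
    (h' : Lev.Cont L L' (MonoidHom.id G)) (ρ : Representation k G M) :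
    Function.Bijective (PairHom.ofEquivLev h ρ).H1map := by
  rw [Function.bijective_iff_has_inverse]
  refine ⟨(PairHom.ofEquivLev h' ρ).H1map, fun x => ?_, fun x => ?_⟩
  · rw [← LinearMap.comp_apply, ← PairHom.H1map_comp,
      show (PairHom.ofEquivLev h' ρ).comp (PairHom.ofEquivLev h ρ) = PairHom.id L ρ from
        PairHom.ext' rfl rfl, PairHom.H1map_id]
    rfl
  · rw [← LinearMap.comp_apply, ← PairHom.H1map_comp,
      show (PairHom.ofEquivLev h ρ).comp (PairHom.ofEquivLev h' ρ) = PairHom.id L' ρ from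
        PairHom.ext' rfl rfl, PairHom.H1map_id]
    rfl

lemma PairHom.ofEquivLev_H2_bijective {L L' : Lev G} (h : Lev.Cont L' L (MonoidHom.id G))
    (h' : Lev.Cont L L' (MonoidHom.id G)) (ρ : Representation k G M) :
    Function.Bijective (PairHom.ofEquivLev h ρ).H2map := by
  rw [Function.bijective_iff_has_inverse]
  refine ⟨(PairHom.ofEquivLev h' ρ).H2map, fun x => ?_, fun x => ?_⟩
  · rw [← LinearMap.comp_apply, ← PairHom.H2map_comp,
      show (PairHom.ofEquivLev h' ρ).comp (PairHom.ofEquivLev h ρ) = PairHom.id L ρ from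
        PairHom.ext' rfl rfl, PairHom.H2map_id]
    rfl
  · rw [← LinearMap.comp_apply, ← PairHom.H2map_comp,
      show (PairHom.ofEquivLev h ρ).comp (PairHom.ofEquivLev h' ρ) = PairHom.id L' ρ from
        PairHom.ext' rfl rfl, PairHom.H2map_id]
    rfl

/-- an isomorphism of pairs induces bijections: `f` a group isomorphism which is a homeomorphism,
`φ` a linear equivalence. -/
lemma PairHom.bijective_of_equiv (α : PairHom LG LH ρ σ) (hf : Function.Bijective α.f)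
    (hf' : ∀ V ∈ LH.sets, ∃ U ∈ LG.sets, U.comap α.f ≤ V) (hφ : Function.Bijective α.φ) :
    Function.Bijective α.H0map ∧ Function.Bijective α.H1map ∧ Function.Bijective α.H2map := by
  let e := MulEquiv.ofBijective α.f hf
  let ψ := LinearEquiv.ofBijective α.φ hφ
  have he : ∀ g, α.f (e.symm g) = g := fun g => e.apply_symm_apply g
  have he' : ∀ h, e.symm (α.f h) = h := fun h => e.symm_apply_apply h
  have hψ : ∀ n, α.φ (ψ.symm n) = n := fun n => ψ.apply_symm_apply n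
  have hψ' : ∀ m, ψ.symm (α.φ m) = m := fun m => ψ.symm_apply_apply m
  let β : PairHom LH LG σ ρ :=
    { f := e.symm.toMonoidHom
      φ := ψ.symm.toLinearMap
      cont := fun V hV => by
        obtain ⟨U, hU, hUV⟩ := hf' V hV
        refine ⟨U, hU, fun u hu => hUV ?_⟩
        show α.f (e.symm u) ∈ U
        rwa [he]
      compat := fun g n => by
        show ψ.symm (σ (e.symm g) n) = ρ g (ψ.symm n)
        apply hφ.1
        rw [hψ]
        conv_rhs => rw [← he g, α.compat, hψ] }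
  have h1 : β.comp α = PairHom.id LG ρ :=
    PairHom.ext' (MonoidHom.ext fun g => he g) (LinearMap.ext fun m => hψ' m)
  have h2 : α.comp β = PairHom.id LH σ :=
    PairHom.ext' (MonoidHom.ext fun h => he' h) (LinearMap.ext fun n => hψ n)
  refine ⟨?_, ?_, ?_⟩
  · rw [Function.bijective_iff_has_inverse]
    refine ⟨β.H0map, fun x => ?_, fun x => ?_⟩
    · rw [← LinearMap.comp_apply, ← PairHom.H0map_comp, h1, PairHom.H0map_id]; rfl
    · rw [← LinearMap.comp_apply, ← PairHom.H0map_comp, h2, PairHom.H0map_id]; rfl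
  · rw [Function.bijective_iff_has_inverse]
    refine ⟨β.H1map, fun x => ?_, fun x => ?_⟩
    · rw [← LinearMap.comp_apply, ← PairHom.H1map_comp, h1, PairHom.H1map_id]; rfl
    · rw [← LinearMap.comp_apply, ← PairHom.H1map_comp, h2, PairHom.H1map_id]; rfl
  · rw [Function.bijective_iff_has_inverse]
    refine ⟨β.H2map, fun x => ?_, fun x => ?_⟩
    · rw [← LinearMap.comp_apply, ← PairHom.H2map_comp, h1, PairHom.H2map_id]; rfl
    · rw [← LinearMap.comp_apply, ← PairHom.H2map_comp, h2, PairHom.H2map_id]; rfl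

end pairhom

end Fermat.Agent.S55

end
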