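import Fermat.Agent.S55.Fc.Basic

/-!
# S55 F-con 3: level cohomology commutes with finite products; groups of order prime to `p`
-/

set_option autoImplicit false

noncomputable section

namespace Fermat.Agent.S55

variable {k : Type*} [CommRing k] {G : Type} [Group G] (L : Lev G)

section pi

variable {ι : Type*} {M : ι → Type*} [∀ i, AddCommGroup (M i)] [∀ i, Module k (M i)]
  (ρ : ∀ i, Representation k G (M i))

/-- the product representation -/
def piRep : Representation k G (∀ i, M i) where
  toFun g := LinearMap.pi fun i => (ρ i g).comp (LinearMap.proj i)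
  map_one' := by ext; simp
  map_mul' a b := by ext; simp

@[simp] lemma piRep_apply (g : G) (m : ∀ i, M i) (i : ι) : piRep ρ g m i = ρ i g (m i) := rfl

/-- the projections -/
def PairHom.proj (i : ι) : PairHom L L (piRep ρ) (ρ i) :=
  PairHom.ofLinear L (LinearMap.proj i) fun _ _ => rfl

lemma piRep_isDiscrete [Finite ι] (h : ∀ i, IsDiscrete L (ρ i)) : IsDiscrete L (piRep ρ) := by
  intro m
  obtain ⟨V, hV, -, hle⟩ := L.exists_normal_le_of_finite (fun i => stab (ρ i) (m i))
    (fun i => isDiscrete_iff.1 (h i) (m i))
  exact ⟨V, hV, fun u hu => funext fun i => hle i hu⟩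

lemma pi_H0_bijective :
    Function.Bijective (LinearMap.pi fun i => (PairHom.proj L ρ i).H0map) := by
  constructor
  · intro a b hab
    apply Subtype.ext
    funext i
    exact congrArg Subtype.val (congrFun hab i)
  · intro m
    refine ⟨⟨fun i => (m i : M i), fun g => funext fun i => (m i).2 g⟩, ?_⟩
    funext i
    exact Subtype.ext rfl

lemma pi_H1_bijective [Finite ι] :
    Function.Bijective (LinearMap.pi fun i => (PairHom.proj L ρ i).H1map) := by
  constructor
  · rw [injective_iff_map_eq_zero]
    intro c
    induction c using H1_induction with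
    | h x =>
      intro hx
      have h1 : ∀ i, ∃ m : M i, ∀ g, (x : G → ∀ i, M i) g i = ρ i g m - m := by
        intro i
        have h2 := congrFun hx i
        simp only [LinearMap.pi_apply, PairHom.H1map_mk, Pi.zero_apply] at h2
        rw [H1π_eq_zero_iff, mem_B1_iff] at h2
        exact h2
      choose m hm using h1
      rw [H1π_eq_zero_iff, mem_B1_iff]
      exact ⟨m, fun g => funext fun i => hm i g⟩
  · intro c
    have h1 : ∀ i, ∃ x : ↥(Z1 L (ρ i)), H1π L (ρ i) x = c i := fun i =>
      Submodule.mkQ_surjective _ (c i)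
    choose x hx using h1
    have h2 : ∀ i, ∃ U ∈ L.sets, ∀ g : G, ∀ u ∈ U, (x i : G → M i) (g * u) = (x i : G → M i) g :=
      fun i => Z1.isLev (x i)
    choose U hU hUx using h2
    obtain ⟨V, hV, -, hle⟩ := L.exists_normal_le_of_finite U (fun i => Lev.isOpen_of_mem (hU i))
    refine ⟨H1π L (piRep ρ) (Z1.mk (fun g i => (x i : G → M i) g)
      ⟨V, hV, fun g u hu => funext fun i => hUx i g u (hle i hu)⟩
      (fun g h => funext fun i => Z1.mul (x i) g h)), ?_⟩
    funext i
    rw [← hx i]
    rfl

lemma pi_H2_bijective [Finite ι] :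
    Function.Bijective (LinearMap.pi fun i => (PairHom.proj L ρ i).H2map) := by
  constructor
  · rw [injective_iff_map_eq_zero]
    intro c
    induction c using H2_induction with
    | h x =>
      intro hx
      have h1 : ∀ i, ∃ y : G → M i, IsLev₁ L y ∧
          ∀ g h, (x : G × G → ∀ i, M i) (g, h) i = ρ i g (y h) - y (g * h) + y g := by
        intro i
        have h2 := congrFun hx i
        simp only [LinearMap.pi_apply, PairHom.H2map_mk, Pi.zero_apply] at h2
        rw [H2π_eq_zero_iff, mem_B2_iff] at h2
        exact h2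
      choose y hyl hy using h1
      choose U hU hUy using hyl
      obtain ⟨V, hV, -, hle⟩ := L.exists_normal_le_of_finite U (fun i => Lev.isOpen_of_mem (hU i))
      rw [H2π_eq_zero_iff, mem_B2_iff]
      exact ⟨fun g i => y i g, ⟨V, hV, fun g u hu => funext fun i => hUy i g u (hle i hu)⟩,
        fun g h => funext fun i => hy i g h⟩
  · intro c
    have h1 : ∀ i, ∃ x : ↥(Z2 L (ρ i)), H2π L (ρ i) x = c i := fun i =>
      Submodule.mkQ_surjective _ (c i)
    choose x hx using h1
    have h2 : ∀ i, ∃ U ∈ L.sets, ∀ g h : G, ∀ u ∈ U, ∀ v ∈ U,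
        (x i : G × G → M i) (g * u, h * v) = (x i : G × G → M i) (g, h) :=
      fun i => Z2.isLev (x i)
    choose U hU hUx using h2
    obtain ⟨V, hV, -, hle⟩ := L.exists_normal_le_of_finite U (fun i => Lev.isOpen_of_mem (hU i))
    refine ⟨H2π L (piRep ρ) (Z2.mk (fun p i => (x i : G × G → M i) p)
      ⟨V, hV, fun g h u hu v hv => funext fun i => hUx i g h u (hle i hu) v (hle i hv)⟩
      (fun g h j => funext fun i => Z2.cocycle (x i) g h j)), ?_⟩
    funext i
    rw [← hx i]
    rfl

end pi

section primeToP

variable {M : Type*} [AddCommGroup M] [Module k M] (ρ : Representation k G M)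

/-- averaging: `H¹` of a finite group of order invertible in `k` vanishes (any level structure) -/
lemma H1_eq_zero_of_isUnit_card [Finite G] (hk : IsUnit (Nat.card G : k)) (c : H1 L ρ) : c = 0 := by
  classical
  have := Fintype.ofFinite G
  obtain ⟨u, hu⟩ := hk
  induction c using H1_induction with
  | h x =>
    rw [H1π_eq_zero_iff, mem_B1_iff]
    set m : M := ∑ g, (x : G → M) g with hm
    have key : ∀ g, (u : k) • (x : G → M) g = m - ρ g m := by
      intro g
      have h1 : ∑ h, (x : G → M) (g * h) = m :=
        Fintype.sum_equiv (Equiv.mulLeft g) _ _ (fun _ => rfl)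
      have h2 : ∑ h, (x : G → M) (g * h) = ρ g m + (u : k) • (x : G → M) g := by
        simp only [Z1.mul x g, Finset.sum_add_distrib, Finset.sum_const, Finset.card_univ]
        rw [hm, map_sum, hu, Nat.card_eq_fintype_card, Nat.cast_smul_eq_nsmul]
      rw [h1] at h2
      rw [eq_sub_iff_add_eq, add_comm]
      exact h2.symm
    refine ⟨-((↑u⁻¹ : k) • m), fun g => ?_⟩
    have h3 : (x : G → M) g = (↑u⁻¹ : k) • ((u : k) • (x : G → M) g) := by
      rw [smul_smul, Units.inv_mul, one_smul]
    rw [h3, key g, map_neg, map_smul, smul_sub]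
    abel

/-- averaging: `H²` of a finite group of order invertible in `k` vanishes (any level structure) -/
lemma H2_eq_zero_of_isUnit_card [Finite G] (hk : IsUnit (Nat.card G : k)) (c : H2 L ρ) : c = 0 := by
  classical
  have := Fintype.ofFinite G
  obtain ⟨u, hu⟩ := hk
  induction c using H2_induction with
  | h x =>
    rw [H2π_eq_zero_iff, mem_B2_iff]
    set y : G → M := fun g => ∑ j, (x : G × G → M) (g, j) with hy
    have hyl : y ∈ C1 k L M := by
      have h0 : y = ∑ j, fun g => (x : G × G → M) (g, j) := by
        funext g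
        rw [Finset.sum_apply]
      rw [h0]
      exact Submodule.sum_mem _ fun j _ => (Z2.isLev x).left j
    have key : ∀ g h, (u : k) • (x : G × G → M) (g, h) = ρ g (y h) - y (g * h) + y g := by
      intro g h
      have h1 : ∑ j, (x : G × G → M) (g, h * j) = y g :=
        Fintype.sum_equiv (Equiv.mulLeft h) _ _ (fun _ => rfl)
      have h2 : ∑ j, ((x : G × G → M) (g * h, j) + (x : G × G → M) (g, h))
          = ∑ j, (ρ g ((x : G × G → M) (h, j)) + (x : G × G → M) (g, h * j)) :=
        Finset.sum_congr rfl fun j _ => Z2.cocycle x g h j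
      rw [Finset.sum_add_distrib, Finset.sum_add_distrib, h1, Finset.sum_const, Finset.card_univ,
        ← map_sum, ← Nat.cast_smul_eq_nsmul k, ← Nat.card_eq_fintype_card, ← hu] at h2
      have h3 : y (g * h) + (u : k) • (x : G × G → M) (g, h) = ρ g (y h) + y g := h2
      rw [sub_add_eq_add_sub, eq_sub_iff_add_eq, add_comm]
      exact h3
    refine ⟨(↑u⁻¹ : k) • y, (C1 k L M).smul_mem _ hyl, fun g h => ?_⟩
    have h3 : (x : G × G → M) (g, h) = (↑u⁻¹ : k) • ((u : k) • (x : G × G → M) (g, h)) := by
      rw [smul_smul, Units.inv_mul, one_smul]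
    rw [h3, key g h]
    simp only [Pi.smul_apply, map_smul, smul_add, smul_sub]

end primeToP

end Fermat.Agent.S55

end
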