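import Fermat.Agent.S55.Fc.LES.Defs
import Fermat.Agent.S55.Fc.Prod

/-!
# S55 F-con 5: coinduced modules `Representation.coind j σ` (`j : H →* G` injective with open image)
Elements of `coindV j σ` are the functions `F : G → A` with `F (j h * g) = σ h (F g)`;
`G` acts by right translation.
-/

set_option autoImplicit false

noncomputable section

namespace Fermat.Agent.S55

open Representation

variable {k : Type*} [CommRing k] {G H : Type} [Group G] [Group H] (j : H →* G)
variable {A B C : Type*} [AddCommGroup A] [Module k A] [AddCommGroup B] [Module k B]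
  [AddCommGroup C] [Module k C]
variable {σ : Representation k H A} {σB : Representation k H B} {σC : Representation k H C}

/-- functoriality of `coindV` in the coefficients -/
def coindLin (φ : A →ₗ[k] B) (hφ : ∀ h a, φ (σ h a) = σB h (φ a)) :
    coindV j σ →ₗ[k] coindV j σB :=
  (φ.compLeft G).restrict fun F hF h g => by
    simp only [LinearMap.compLeft_apply, Function.comp_apply]
    rw [hF h g, hφ]

@[simp] lemma coindLin_apply (φ : A →ₗ[k] B) (hφ : ∀ h a, φ (σ h a) = σB h (φ a))
    (F : coindV j σ) (g : G) : (coindLin j φ hφ F : G → B) g = φ ((F : G → A) g) := rfl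

lemma coindLin_comm (φ : A →ₗ[k] B) (hφ : ∀ h a, φ (σ h a) = σB h (φ a)) (g : G)
    (F : coindV j σ) : coindLin j φ hφ (coind j σ g F) = coind j σB g (coindLin j φ hφ F) := rfl

/-- the chosen representative of the right coset `j(H) g` -/
def coindRep (g : G) : G := (Quotient.mk (QuotientGroup.rightRel j.range) g).out

lemma coindRep_mul (h : H) (g : G) : coindRep j (j h * g) = coindRep j g := by
  unfold coindRep
  congr 1
  apply Quotient.sound
  show QuotientGroup.rightRel j.range (j h * g) g
  rw [QuotientGroup.rightRel_apply]
  exact ⟨h⁻¹, by simp⟩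

lemma exists_eq_mul_coindRep (g : G) : ∃ h, g = j h * coindRep j g := by
  have h1 : QuotientGroup.rightRel j.range (coindRep j g) g :=
    Quotient.exact (Quotient.out_eq (Quotient.mk (QuotientGroup.rightRel j.range) g))
  rw [QuotientGroup.rightRel_apply] at h1
  obtain ⟨h, hh⟩ := h1
  exact ⟨h, by rw [hh]; simp⟩

lemma coindRep_coindRep (g : G) : coindRep j (coindRep j g) = coindRep j g := by
  unfold coindRep
  rw [Quotient.out_eq]

lemma coindRep_out (q : Quotient (QuotientGroup.rightRel j.range)) :
    coindRep j q.out = q.out := by
  unfold coindRep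
  rw [Quotient.out_eq]

/-- the `H`-coordinate of `g`: `g = j (coindCoord j g) * coindRep j g` -/
def coindCoord (g : G) : H := (exists_eq_mul_coindRep j g).choose

lemma coindCoord_spec (g : G) : g = j (coindCoord j g) * coindRep j g :=
  (exists_eq_mul_coindRep j g).choose_spec

lemma coindCoord_mul (hj : Function.Injective j) (h : H) (g : G) :
    coindCoord j (j h * g) = h * coindCoord j g := by
  apply hj
  have h1 := coindCoord_spec j (j h * g)
  rw [coindRep_mul] at h1
  have h2 := coindCoord_spec j g
  rw [map_mul]
  apply mul_right_cancel (b := coindRep j g)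
  rw [← h1, mul_assoc, ← h2]

lemma coindCoord_coindRep (hj : Function.Injective j) (g : G) :
    coindCoord j (coindRep j g) = 1 := by
  apply hj
  have h1 := coindCoord_spec j (coindRep j g)
  rw [coindRep_coindRep] at h1
  rw [map_one]
  exact (mul_eq_right.mp h1.symm)

/-- the element of `coindV` with prescribed values on the representatives -/
def coindOfValues (σ : Representation k H A) (hj : Function.Injective j) (a : G → A) :
    coindV j σ :=
  ⟨fun g => σ (coindCoord j g) (a (coindRep j g)), fun h g => by
    show σ (coindCoord j (j h * g)) (a (coindRep j (j h * g))) = _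
    rw [coindCoord_mul j hj, coindRep_mul, map_mul]; rfl⟩

lemma coindOfValues_apply (hj : Function.Injective j) (a : G → A) (g : G) :
    (coindOfValues j σ hj a : G → A) g = σ (coindCoord j g) (a (coindRep j g)) := rfl

lemma coindOfValues_coindRep (hj : Function.Injective j) (a : G → A) (g : G) :
    (coindOfValues j σ hj a : G → A) (coindRep j g) = a (coindRep j g) := by
  rw [coindOfValues_apply, coindCoord_coindRep j hj, coindRep_coindRep, map_one]; rfl

lemma coindV_apply_eq (F : coindV j σ) (g : G) :
    (F : G → A) g = σ (coindCoord j g) ((F : G → A) (coindRep j g)) := by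
  conv_lhs => rw [coindCoord_spec j g]
  exact F.2 _ _

/-- [CoInd-a] extension by zero/equivariance: a function on a set of representatives of
`j(H) \ G` extends uniquely to an element of `coindV`. -/
lemma exists_coind_of_values (hj : Function.Injective j) (a : G → A) :
    ∃ (r : G → G), (∀ h g, r (j h * g) = r g) ∧ (∀ g, ∃ h, g = j h * r g) ∧ (∀ g, r (r g) = r g) ∧
      ∃ F : coindV j σ, ∀ g, (F : G → A) (r g) = a (r g) :=
  ⟨coindRep j, coindRep_mul j, exists_eq_mul_coindRep j, coindRep_coindRep j,
    coindOfValues j σ hj a, coindOfValues_coindRep j hj a⟩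

/-- [CoInd-a] `coind` preserves surjections -/
lemma coindLin_surjective (hj : Function.Injective j) (φ : A →ₗ[k] B)
    (hφ : ∀ h a, φ (σ h a) = σB h (φ a)) (hs : Function.Surjective φ) :
    Function.Surjective (coindLin j φ hφ) := by
  intro F'
  choose s hs' using hs
  refine ⟨coindOfValues j σ hj fun g => s ((F' : G → B) g), ?_⟩
  ext g
  rw [coindLin_apply, coindOfValues_apply, hφ, hs', ← coindV_apply_eq]

/-- [CoInd-a] `coind` is exact -/
def SES.coind (E : SES σ σB σC) (hj : Function.Injective j) :
    SES (coind j σ) (coind j σB) (coind j σC) where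
  i := coindLin j E.i E.hi
  π := coindLin j E.π E.hπ
  hi := coindLin_comm j E.i E.hi
  hπ := coindLin_comm j E.π E.hπ
  inj := fun F F' h => by
    ext g
    exact E.inj (congrFun (congrArg Subtype.val h) g)
  surj := coindLin_surjective j hj E.π E.hπ E.surj
  exact := by
    intro F'
    constructor
    · intro h0
      have h1 : ∀ g, ∃ a, E.i a = (F' : G → B) g := fun g =>
        (E.exact _).1 (congrFun (congrArg Subtype.val h0) g)
      choose a ha using h1
      refine ⟨⟨a, fun h g => E.inj ?_⟩, ?_⟩
      · rw [ha, E.hi, ha]; exact F'.2 h g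
      · ext g
        exact ha g
    · rintro ⟨F, rfl⟩
      ext g
      exact (E.exact _).2 ⟨_, rfl⟩

variable {L : Lev G} {LH : Lev H}

/-- [CoInd-b] a coinduced module of a discrete module is discrete -/
lemma coind_isDiscrete (hj : L.IsOpen j.range) (hL : Lev.Induced LH L j)
    (hσ : IsDiscrete LH σ) : IsDiscrete L (coind j σ) := by
  intro F
  have hfi : j.range.FiniteIndex := hj.finiteIndex
  have hfin : Finite (Quotient (QuotientGroup.rightRel j.range)) :=
    Finite.of_equiv _ (QuotientGroup.quotientRightRelEquivQuotientLeftRel j.range).symm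
  have h1 : ∀ q : Quotient (QuotientGroup.rightRel j.range), ∃ U : Subgroup G, L.IsOpen U ∧
      ∀ h, j h ∈ U → σ h ((F : G → A) q.out) = (F : G → A) q.out := by
    intro q
    obtain ⟨V, hV, hVf⟩ := hσ ((F : G → A) q.out)
    obtain ⟨U, hU, hUV⟩ := hL.2 V hV
    exact ⟨U, Lev.isOpen_of_mem hU, fun h hh => hVf h (hUV hh)⟩
  choose U hUo hUf using h1
  obtain ⟨W, hW, hWn, hWle⟩ := L.exists_normal_le_of_finite
    (fun o : Option (Quotient (QuotientGroup.rightRel j.range)) => o.elim j.range U)
    (fun o => by cases o with
      | none => exact hj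
      | some q => exact hUo q)
  refine ⟨W, hW, fun u hu => ?_⟩
  ext g
  show (F : G → A) (g * u) = (F : G → A) g
  set q : Quotient (QuotientGroup.rightRel j.range) := Quotient.mk _ g with hq
  have hr : coindRep j g = q.out := rfl
  have hc : coindRep j g * u * (coindRep j g)⁻¹ ∈ W := hWn.conj_mem u hu _
  obtain ⟨h', hh'⟩ := hWle none hc
  have h2 : σ h' ((F : G → A) q.out) = (F : G → A) q.out :=
    hUf q h' (by rw [hh']; exact hWle (some q) hc)
  have h3 : g * u = j (coindCoord j g) * (j h' * coindRep j g) := by
    rw [hh']
    conv_lhs => rw [coindCoord_spec j g]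
    group
  rw [h3, F.2, F.2, hr, h2, ← hr, ← coindV_apply_eq]

/-- evaluation at `g` -/
def coindEv (σ : Representation k H A) (g : G) : coindV j σ →ₗ[k] A :=
  (LinearMap.proj g).comp (coindV j σ).subtype

@[simp] lemma coindEv_apply (g : G) (F : coindV j σ) : coindEv j σ g F = (F : G → A) g := rfl

/-- the Shapiro morphism `(G, coind σ) → (H, σ)`: restriction along `j` and evaluation at `1` -/
def shapiro (σ : Representation k H A) (hL : Lev.Cont LH L j) : PairHom L LH (coind j σ) σ where
  f := j
  φ := coindEv j σ 1
  cont := hL
  compat := fun h F => by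
    have := F.2 h 1
    rw [mul_one] at this
    show (F : G → A) (1 * j h) = σ h ((F : G → A) 1)
    rw [one_mul]
    exact this

/-- [CoInd-c] `coind` commutes with finite products -/
lemma coind_pi_bijective {ι : Type*} {M : ι → Type*} [∀ i, AddCommGroup (M i)]
    [∀ i, Module k (M i)] (τ : ∀ i, Representation k H (M i)) :
    Function.Bijective (LinearMap.pi fun i =>
      coindLin j (σ := piRep τ) (σB := τ i) (LinearMap.proj i) fun _ _ => rfl) := by
  constructor
  · intro F F' h
    ext g i
    exact congrFun (congrArg Subtype.val (congrFun h i)) g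
  · intro F
    refine ⟨⟨fun g i => (F i : G → M i) g, fun h g => ?_⟩, ?_⟩
    · ext i
      exact (F i).2 h g
    · ext i g
      rfl

/-- [CoInd-c] an isomorphism of coefficients induces an isomorphism of coinduced modules -/
lemma coindLin_bijective (φ : A →ₗ[k] B) (hφ : ∀ h a, φ (σ h a) = σB h (φ a))
    (hb : Function.Bijective φ) : Function.Bijective (coindLin j φ hφ) := by
  constructor
  · intro F F' h
    ext g
    exact hb.1 (congrFun (congrArg Subtype.val h) g)
  · intro F'
    choose s hs using hb.2
    refine ⟨⟨fun g => s ((F' : G → B) g), fun h g => hb.1 ?_⟩, ?_⟩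
    · rw [hs, hφ, hs]; exact F'.2 h g
    · ext g
      exact hs _

/-- `coindV j σ` is the module of functions on `j(H) \ G` -/
def coindVEquivQuot (σ : Representation k H A) (hj : Function.Injective j) :
    coindV j σ ≃ₗ[k] (Quotient (QuotientGroup.rightRel j.range) → A) where
  toFun F q := (F : G → A) q.out
  map_add' _ _ := rfl
  map_smul' _ _ := rfl
  invFun a := coindOfValues j σ hj fun g => a (Quotient.mk _ g)
  left_inv F := by
    ext g
    rw [coindOfValues_apply]
    conv_rhs => rw [coindV_apply_eq]
    show σ (coindCoord j g) ((F : G → A) (coindRep j (coindRep j g))) = _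
    rw [coindRep_coindRep]
  right_inv a := by
    ext q
    show (coindOfValues j σ hj fun g => a (Quotient.mk _ g) : G → A) q.out = a q
    rw [← coindRep_out, coindOfValues_coindRep, coindRep_out, Quotient.out_eq]

/-- [CoInd-c] dimension of a coinduced module -/
lemma finrank_coind {F : Type*} [Field F] {V : Type*} [AddCommGroup V] [Module F V]
    [FiniteDimensional F V] (τ : Representation F H V) (hj : Function.Injective j)
    [j.range.FiniteIndex] :
    Module.finrank F (coindV j τ) = j.range.index * Module.finrank F V ∧
      FiniteDimensional F (coindV j τ) := by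
  have hfin : Finite (Quotient (QuotientGroup.rightRel j.range)) :=
    Finite.of_equiv _ (QuotientGroup.quotientRightRelEquivQuotientLeftRel j.range).symm
  have := Fintype.ofFinite (Quotient (QuotientGroup.rightRel j.range))
  constructor
  · rw [(coindVEquivQuot j τ hj).finrank_eq, Module.finrank_pi_fintype, Finset.sum_const,
      Finset.card_univ, smul_eq_mul, Subgroup.index, ← Nat.card_eq_fintype_card,
      Nat.card_congr (QuotientGroup.quotientRightRelEquivQuotientLeftRel j.range)]
  · exact LinearEquiv.finiteDimensional (coindVEquivQuot j τ hj).symm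

end Fermat.Agent.S55

end
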