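import Fermat.Agent.S55.Fc.Basic

/-!
# S55 F-con 2: inner automorphisms act trivially on level cohomology
-/

set_option autoImplicit false

noncomputable section

namespace Fermat.Agent.S55

variable {k : Type*} [CommRing k] {G H : Type} [Group G] [Group H]
variable {M N : Type*} [AddCommGroup M] [Module k M] [AddCommGroup N] [Module k N]

/-- conjugation by `g`: the pair `(x ↦ g x g⁻¹, ρ g⁻¹)`. -/
def PairHom.conj (L : Lev G) (ρ : Representation k G M) (g : G) : PairHom L L ρ ρ where
  f := (MulAut.conj g).toMonoidHom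
  φ := ρ g⁻¹
  cont := L.cont_conj g
  compat := fun h m => by
    simp only [MulEquiv.coe_toMonoidHom, MulAut.conj_apply, ← Module.End.mul_apply, ← map_mul]
    congr 2
    group

variable (L : Lev G) (ρ : Representation k G M) (g : G)

lemma PairHom.conj_H0map : (PairHom.conj L ρ g).H0map = LinearMap.id := by
  ext m
  exact m.2 g⁻¹

/-- `ρ g⁻¹ ∘ ρ g = id`. -/
lemma conj_inv_apply (m : M) : ρ g⁻¹ (ρ g m) = m := by
  rw [← Module.End.mul_apply, ← map_mul, inv_mul_cancel, map_one, Module.End.one_apply]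

/-- `ρ g⁻¹ ∘ ρ (g a g⁻¹) = ρ a ∘ ρ g⁻¹`. -/
lemma conj_inv_conj_apply (a : G) (m : M) : ρ g⁻¹ (ρ (g * a * g⁻¹) m) = ρ a (ρ g⁻¹ m) := by
  rw [← Module.End.mul_apply, ← map_mul, ← Module.End.mul_apply, ← map_mul]
  congr 2
  group

lemma PairHom.conj_H1map : (PairHom.conj L ρ g).H1map = LinearMap.id := by
  refine LinearMap.ext fun c => ?_
  induction c using H1_induction with
  | h x =>
    rw [PairHom.H1map_mk, LinearMap.id_apply, H1π_eq_iff]
    refine ⟨-ρ g⁻¹ ((x : G → M) g), fun a => ?_⟩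
    have h1 := Z1.mul x g a
    have h2 := Z1.mul x (g * a * g⁻¹) g
    rw [show g * a * g⁻¹ * g = g * a by group, h1] at h2
    have h3 : (x : G → M) (g * a * g⁻¹)
        = ρ g ((x : G → M) a) + (x : G → M) g - ρ (g * a * g⁻¹) ((x : G → M) g) := by
      rw [h2]; abel
    show ρ g⁻¹ ((x : G → M) (g * a * g⁻¹)) - (x : G → M) a = _
    rw [h3, map_sub, map_add, conj_inv_apply, conj_inv_conj_apply, map_neg]
    abel

lemma PairHom.conj_H2map : (PairHom.conj L ρ g).H2map = LinearMap.id := by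
  refine LinearMap.ext fun c => ?_
  induction c using H2_induction with
  | h x =>
    rw [PairHom.H2map_mk, LinearMap.id_apply, H2π_eq_iff]
    have hl1 : IsLev₁ L (fun a => (x : G × G → M) (g * a * g⁻¹, g)) :=
      (((Z2.isLev x).left g).mul_right g⁻¹).mul_left g
    have hl2 : IsLev₁ L (fun a => (x : G × G → M) (g, a)) := (Z2.isLev x).right g
    refine ⟨fun a => ρ g⁻¹ ((x : G × G → M) (g * a * g⁻¹, g) - (x : G × G → M) (g, a)),
      (hl1.map₂ hl2 (· - ·)).comp (ρ g⁻¹), fun a b => ?_⟩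
    have t1 := Z2.cocycle x (g * a * g⁻¹) (g * b * g⁻¹) g
    have t2 := Z2.cocycle x (g * a * g⁻¹) g b
    have t3 := Z2.cocycle x g a b
    rw [show g * a * g⁻¹ * (g * b * g⁻¹) = g * (a * b) * g⁻¹ by group,
      show g * b * g⁻¹ * g = g * b by group] at t1
    rw [show g * a * g⁻¹ * g = g * a by group] at t2
    have h3 : (x : G × G → M) (g * a * g⁻¹, g * b * g⁻¹)
        = ρ g ((x : G × G → M) (a, b))
          + ρ (g * a * g⁻¹) ((x : G × G → M) (g * b * g⁻¹, g) - (x : G × G → M) (g, b))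
          - ((x : G × G → M) (g * (a * b) * g⁻¹, g) - (x : G × G → M) (g, a * b))
          + ((x : G × G → M) (g * a * g⁻¹, g) - (x : G × G → M) (g, a)) := by
      rw [map_sub]
      have e1 := eq_sub_of_add_eq' t1
      have e2 := eq_sub_of_add_eq t2
      have e3 := eq_sub_of_add_eq t3
      rw [e1]
      have e4 : (x : G × G → M) (g * a * g⁻¹, g * b)
          = (x : G × G → M) (g * a, b) + (x : G × G → M) (g * a * g⁻¹, g)
            - ρ (g * a * g⁻¹) ((x : G × G → M) (g, b)) := by
        rw [t2]; abel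
      rw [e4, e3]
      abel
    show ρ g⁻¹ ((x : G × G → M) (g * a * g⁻¹, g * b * g⁻¹)) - (x : G × G → M) (a, b) = _
    rw [h3, map_add, map_sub, map_add, conj_inv_apply, conj_inv_conj_apply]
    abel

variable {L ρ} {LH : Lev H} {σ : Representation k H N}

/-- two `PairHom`s which differ by an inner automorphism of `G` induce the same maps. -/
lemma PairHom.map_eq_of_conj (α β : PairHom L LH ρ σ) (g : G)
    (hf : ∀ h, β.f h = g * α.f h * g⁻¹) (hφ : ∀ m, β.φ m = α.φ (ρ g⁻¹ m)) :
    β.H0map = α.H0map ∧ β.H1map = α.H1map ∧ β.H2map = α.H2map := by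
  have h : β = α.comp (PairHom.conj L ρ g) :=
    PairHom.ext' (MonoidHom.ext fun x => by simp [PairHom.comp, PairHom.conj, hf])
      (LinearMap.ext fun m => by simp [PairHom.comp, PairHom.conj, hφ])
  subst h
  refine ⟨?_, ?_, ?_⟩
  · rw [PairHom.H0map_comp, PairHom.conj_H0map, LinearMap.comp_id]
  · rw [PairHom.H1map_comp, PairHom.conj_H1map, LinearMap.comp_id]
  · rw [PairHom.H2map_comp, PairHom.conj_H2map, LinearMap.comp_id]

end Fermat.Agent.S55

end
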