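import Fermat.Agent.S55.Fc.LES.Exact0
import Fermat.Agent.S55.Fc.LES.Exact1
import Fermat.Agent.S55.Fc.LES.Exact2
import Fermat.Agent.S55.Fc.LES.Natural

/-! # S55 F-con 1: the 9-term long exact sequence of level cohomology (umbrella file) -/
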