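import Fermat.Agent.S55.Fc.Mackey.Coh
import Fermat.Agent.S55.Fc.Mackey.Square

/-! # S55 F-con 7: Mackey decomposition and the Shapiro-Mackey square (umbrella file) -/
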