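import Fermat.Agent.S55.Fc.ShapiroReg
import Fermat.Agent.S55.Fc.LES

/-!
# S55 F-con 6: Shapiro's lemma in degrees 0, 1, 2 (by dimension shifting)
-/

set_option autoImplicit false

noncomputable section

namespace Fermat.Agent.S55

open Representation

/-- transport of bijectivity along a commutative square with bijective horizontal maps -/
theorem shapiro_aux_square {X₂ X₃ Y₂ Y₃ : Type*} (g : X₂ → X₃) (g' : Y₂ → Y₃)
    (α₂ : X₂ → Y₂) (α₃ : X₃ → Y₃) (hg : Function.Bijective g) (hg' : Function.Bijective g')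
    (h₂ : Function.Bijective α₂) (c₂ : ∀ x, α₃ (g x) = g' (α₂ x)) : Function.Bijective α₃ := by
  have h : α₃ ∘ g = g' ∘ α₂ := funext c₂
  have h1 : Function.Bijective (α₃ ∘ g) := h ▸ hg'.comp h₂
  exact (Function.Bijective.of_comp_iff α₃ hg).mp h1

variable {k : Type*} [CommRing k] {G H : Type} [Group G] [Group H] (j : H →* G)
variable {A : Type*} [AddCommGroup A] [Module k A]
variable {L : Lev G} {LH : Lev H}

/-- [Sh-c] -/
theorem shapiro_H1_bijective (σ : Representation k H A) (hji : Function.Injective j)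
    (hj : L.IsOpen j.range) (hL : Lev.Induced LH L j) (hσ : IsDiscrete LH σ) :
    Function.Bijective (shapiro j σ hL.1).H1map := by
  set E' := SES.reg hσ with hE'
  set E := E'.coind j hji with hE
  have hB' : IsDiscrete LH (regRep k LH A) := regRep_isDiscrete LH
  have hB := coind_isDiscrete j hj hL hB'
  have e1 := E.exact_H0_δ0 L hB
  have e2 : Function.Surjective (E.δ0 L hB) := fun x =>
    (E.exact_δ0_H1 L hB x).1 (coind_regRep_H1_eq_zero j hji hj hL _)
  have e3 := E'.exact_H0_δ0 LH hB'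
  have e4 : Function.Surjective (E'.δ0 LH hB') := fun x =>
    (E'.exact_δ0_H1 LH hB' x).1 (regRep_H1_eq_zero LH _)
  have e5 := (shapiro_H0_bijective j (regRep k LH A) hL.1).2
  have e6 := shapiro_H0_bijective j (regQuot hσ) hL.1
  have e7 : ∀ x, (shapiro j (regQuot hσ) hL.1).H0map ((E.πH L).H0map x)
      = (E'.πH LH).H0map ((shapiro j (regRep k LH A) hL.1).H0map x) := fun x => rfl
  have e8 : ∀ x, (shapiro j σ hL.1).H1map (E.δ0 L hB x)
      = E'.δ0 LH hB' ((shapiro j (regQuot hσ) hL.1).H0map x) := fun x =>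
    SES.δ0_natural E E' hB hB' (shapiro j σ hL.1) (shapiro j (regRep k LH A) hL.1)
      (shapiro j (regQuot hσ) hL.1) rfl rfl (fun _ => rfl) (fun _ => rfl) x
  constructor
  · rw [injective_iff_map_eq_zero]
    intro x₃ hx₃
    obtain ⟨x₂, rfl⟩ := e2 x₃
    rw [e8] at hx₃
    obtain ⟨y₁, hy₁⟩ := (e3 _).1 hx₃
    obtain ⟨x₁, rfl⟩ := e5 y₁
    rw [← e7] at hy₁
    have := e6.1 hy₁
    rw [← this]
    exact (e1 _).2 ⟨x₁, rfl⟩
  · intro y₃
    obtain ⟨y₂, rfl⟩ := e4 y₃
    obtain ⟨x₂, rfl⟩ := e6.2 y₂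
    exact ⟨E.δ0 L hB x₂, e8 x₂⟩

/-- [Sh-c] -/
theorem shapiro_H2_bijective (σ : Representation k H A) (hji : Function.Injective j)
    (hj : L.IsOpen j.range) (hL : Lev.Induced LH L j) (hσ : IsDiscrete LH σ) :
    Function.Bijective (shapiro j σ hL.1).H2map := by
  set E' := SES.reg hσ with hE'
  set E := E'.coind j hji with hE
  have hB' : IsDiscrete LH (regRep k LH A) := regRep_isDiscrete LH
  have hB := coind_isDiscrete j hj hL hB'
  have hQ : IsDiscrete LH (regQuot hσ) := E'.isDiscrete_right LH hB'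
  refine shapiro_aux_square (E.δ1 L hB) (E'.δ1 LH hB') (shapiro j (regQuot hσ) hL.1).H1map
    (shapiro j σ hL.1).H2map ⟨?_, ?_⟩ ⟨?_, ?_⟩ (shapiro_H1_bijective j _ hji hj hL hQ) ?_
  · rw [injective_iff_map_eq_zero]
    intro x hx
    obtain ⟨y, rfl⟩ := (E.exact_H1_δ1 L hB x).1 hx
    rw [coind_regRep_H1_eq_zero j hji hj hL y, map_zero]
  · intro x
    exact (E.exact_δ1_H2 L hB x).1 (coind_regRep_H2_eq_zero j hji hj hL _)
  · rw [injective_iff_map_eq_zero]
    intro x hx
    obtain ⟨y, rfl⟩ := (E'.exact_H1_δ1 LH hB' x).1 hx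
    rw [regRep_H1_eq_zero LH y, map_zero]
  · intro x
    exact (E'.exact_δ1_H2 LH hB' x).1 (regRep_H2_eq_zero LH _)
  · intro x
    exact SES.δ1_natural E E' hB hB' (shapiro j σ hL.1) (shapiro j (regRep k LH A) hL.1)
      (shapiro j (regQuot hσ) hL.1) rfl rfl (fun _ => rfl) (fun _ => rfl) x

end Fermat.Agent.S55

end
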