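import Fermat.Agent.S55.Fc.CoInd
import Fermat.Agent.S55.Fc.Acyclic

/-!
# S55 F-con 6a: Shapiro in degree 0; coinduced regular representations are acyclic
-/

set_option autoImplicit false

noncomputable section

namespace Fermat.Agent.S55

open Representation

variable {k : Type*} [CommRing k] {G H : Type} [Group G] [Group H] (j : H →* G)
variable {A : Type*} [AddCommGroup A] [Module k A]
variable {L : Lev G} {LH : Lev H}

/-- [Sh-a] -/
theorem shapiro_H0_bijective (σ : Representation k H A) (hL : Lev.Cont LH L j) :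
    Function.Bijective (shapiro j σ hL).H0map := by
  constructor
  · intro F F' h
    have h1 : ((F : coindV j σ) : G → A) 1 = ((F' : coindV j σ) : G → A) 1 :=
      congrArg Subtype.val h
    have hconst : ∀ (E : (coind j σ).invariants) (g : G),
        ((E : coindV j σ) : G → A) g = ((E : coindV j σ) : G → A) 1 := by
      intro E g
      have h2 : ((E : coindV j σ) : G → A) (1 * g) = ((E : coindV j σ) : G → A) 1 :=
        congrFun (congrArg Subtype.val (E.2 g)) 1
      rwa [one_mul] at h2
    apply Subtype.ext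
    apply Subtype.ext
    funext g
    rw [hconst F g, hconst F' g, h1]
  · intro a
    refine ⟨⟨⟨fun _ => (a : A), fun h _ => (a.2 h).symm⟩, fun g => ?_⟩, ?_⟩
    · apply Subtype.ext
      funext x
      rfl
    · apply Subtype.ext
      rfl

section reg

variable {j}

/-- all the values of an element of `coindV j (regRep k LH A)` are invariant under a common
normal level of `H`. -/
theorem shapiroReg_uniform (hj : L.IsOpen j.range) (Φ : coindV j (regRep k LH A)) :
    ∃ V ∈ LH.sets, V.Normal ∧ ∀ (g : G) (x : H), ∀ v ∈ V,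
      (((Φ : G → C1 k LH A) g : C1 k LH A) : H → A) (x * v) =
        (((Φ : G → C1 k LH A) g : C1 k LH A) : H → A) x := by
  obtain ⟨U1, hU1, hU1n, hU1j⟩ := hj.exists_normal
  have hfi := L.finiteIndex U1 hU1
  have hfin : Finite (G ⧸ U1) := Subgroup.finite_quotient_of_finiteIndex
  -- a level for each representative
  have hlev : ∀ q : G ⧸ U1, ∃ W ∈ LH.sets, ∀ (x : H), ∀ v ∈ W,
      (((Φ : G → C1 k LH A) q.out : C1 k LH A) : H → A) (x * v) =
        (((Φ : G → C1 k LH A) q.out : C1 k LH A) : H → A) x :=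
    fun q => ((Φ : G → C1 k LH A) q.out).2
  choose W hW hWinv using hlev
  obtain ⟨V, hV, hVn, hVW⟩ := LH.exists_normal_le_of_finite W
    (fun q => Lev.isOpen_of_mem (hW q))
  refine ⟨V, hV, hVn, fun g x v hv => ?_⟩
  -- write `g = j h * q.out`
  obtain ⟨u, hu⟩ := QuotientGroup.mk_out_eq_mul U1 g
  have hWr := hWinv (g : G ⧸ U1)
  generalize ((g : G ⧸ U1)).out = r at hu hWr
  have hmem : r * (u : G)⁻¹ * r⁻¹ ∈ U1 := hU1n.conj_mem _ (U1.inv_mem u.2) r
  obtain ⟨h, hh⟩ := hU1j hmem
  have hg : g = j h * r := by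
    rw [hh, hu]; group
  have key : ∀ y : H, (((Φ : G → C1 k LH A) g : C1 k LH A) : H → A) y =
      (((Φ : G → C1 k LH A) r : C1 k LH A) : H → A) (y * h) := by
    intro y
    rw [hg, Φ.2 h r]
    rfl
  rw [key, key]
  have hconj : h⁻¹ * v * h ∈ V := by simpa using hVn.conj_mem v hv h⁻¹
  have := hWr (x * h) _ (hVW _ hconj)
  rw [← this]
  group

/-- the map `Φ ↦ (g ↦ Φ g 1)`. -/
def shapiroRegLin (hj : L.IsOpen j.range) (hL : Lev.Induced LH L j) :
    coindV j (regRep k LH A) →ₗ[k] C1 k L A where
  toFun Φ := ⟨fun g => (((Φ : G → C1 k LH A) g : C1 k LH A) : H → A) 1, by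
    obtain ⟨V, hV, _, hVinv⟩ := shapiroReg_uniform hj Φ
    obtain ⟨U0, hU0, hU0V⟩ := hL.2 V hV
    obtain ⟨U, hU, hUn, hUle⟩ := ((Lev.isOpen_of_mem hU0).inf hj).exists_normal
    refine ⟨U, hU, fun g u hu => ?_⟩
    have hmem : g * u * g⁻¹ ∈ U := hUn.conj_mem u hu g
    obtain ⟨h, hh⟩ := (hUle hmem).2
    have hhV : h ∈ V := hU0V (by
      show j h ∈ U0
      rw [hh]; exact (hUle hmem).1)
    have hgu : g * u = j h * g := by rw [hh]; group
    show (((Φ : G → C1 k LH A) (g * u) : C1 k LH A) : H → A) 1 = _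
    rw [hgu, Φ.2 h g]
    show (((Φ : G → C1 k LH A) g : C1 k LH A) : H → A) (1 * h) = _
    exact hVinv g 1 h hhV⟩
  map_add' Φ Ψ := rfl
  map_smul' c Φ := rfl

@[simp] theorem shapiroRegLin_apply (hj : L.IsOpen j.range) (hL : Lev.Induced LH L j)
    (Φ : coindV j (regRep k LH A)) (g : G) :
    (shapiroRegLin hj hL Φ : G → A) g = (((Φ : G → C1 k LH A) g : C1 k LH A) : H → A) 1 := rfl

theorem shapiroRegLin_comm (hj : L.IsOpen j.range) (hL : Lev.Induced LH L j) (g : G)
    (Φ : coindV j (regRep k LH A)) :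
    shapiroRegLin hj hL (coind j (regRep k LH A) g Φ) =
      regRep k L A g (shapiroRegLin hj hL Φ) := rfl

theorem shapiroRegLin_bijective (hj : L.IsOpen j.range) (hL : Lev.Induced LH L j) :
    Function.Bijective (shapiroRegLin (k := k) (A := A) hj hL) := by
  constructor
  · intro Φ Ψ h
    apply Subtype.ext
    funext g
    apply Subtype.ext
    funext x
    have h1 := congrFun (congrArg Subtype.val h) (j x * g)
    simp only [shapiroRegLin_apply] at h1
    rw [Φ.2 x g, Ψ.2 x g] at h1
    simpa using h1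
  · intro f
    have hlev : ∀ g : G, IsLev₁ LH (fun x : H => (f : G → A) (j x * g)) := by
      intro g
      exact (IsLev₁.mul_right f.2 g).precomp hL.1
    refine ⟨⟨fun g => ⟨fun x => (f : G → A) (j x * g), hlev g⟩, fun h g => ?_⟩, ?_⟩
    · apply Subtype.ext
      funext x
      show (f : G → A) (j x * (j h * g)) = (f : G → A) (j (x * h) * g)
      rw [map_mul, mul_assoc]
    · apply Subtype.ext
      funext g
      show (f : G → A) (j 1 * g) = (f : G → A) g
      rw [map_one, one_mul]

/-- the isomorphism of pairs `coind j (regRep LH A) ≅ regRep L A`. -/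
def shapiroRegHom (hj : L.IsOpen j.range) (hL : Lev.Induced LH L j) :
    PairHom (M := coindV j (regRep k LH A)) L L (coind j (regRep k LH A)) (regRep k L A) :=
  PairHom.ofLinear L (shapiroRegLin hj hL) (shapiroRegLin_comm hj hL)

theorem shapiroRegHom_bijective (hj : L.IsOpen j.range) (hL : Lev.Induced LH L j) :
    Function.Bijective (shapiroRegHom (k := k) (A := A) hj hL).H0map ∧
      Function.Bijective (shapiroRegHom (k := k) (A := A) hj hL).H1map ∧
      Function.Bijective (shapiroRegHom (k := k) (A := A) hj hL).H2map :=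
  PairHom.bijective_of_equiv _ Function.bijective_id (fun V hV => ⟨V, hV, le_rfl⟩)
    (shapiroRegLin_bijective hj hL)

end reg

set_option synthInstance.maxHeartbeats 400000 in
/-- [Sh-b] `coind j (regRep LH A) ≅ regRep L A` via `Φ ↦ (g ↦ Φ g 1)`; hence it is acyclic. -/
theorem coind_regRep_H1_eq_zero (hji : Function.Injective j) (hj : L.IsOpen j.range)
    (hL : Lev.Induced LH L j) (c : H1 (M := coindV j (regRep k LH A)) L (coind j (regRep k LH A))) : c = 0 := by
  apply (shapiroRegHom_bijective hj hL).2.1.1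
  rw [regRep_H1_eq_zero L ((shapiroRegHom hj hL).H1map c), map_zero]

set_option synthInstance.maxHeartbeats 400000 in
/-- [Sh-b] -/
theorem coind_regRep_H2_eq_zero (hji : Function.Injective j) (hj : L.IsOpen j.range)
    (hL : Lev.Induced LH L j) (c : H2 (M := coindV j (regRep k LH A)) L (coind j (regRep k LH A))) : c = 0 := by
  apply (shapiroRegHom_bijective hj hL).2.2.1
  rw [regRep_H2_eq_zero L ((shapiroRegHom hj hL).H2map c), map_zero]

end Fermat.Agent.S55

end
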